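/-
Programme MW (S17), block ASM (lead): **bounded representatives** of divisor classes.

`exists_bounded_reps` : there is `M` such that every class of `JZero N` is `Pic0.mk a` with
`Pairing4.size a ≤ M` (normal form `E - r·P₀`, `r ≤ γ` = Riemann's constant; `J/DESC/NormalForm10`).
Stated abstractly for any function field with `LHyp` and Riemann's inequality.
-/
import Fermat.Prelude.Def_ModularCurve_ArithmeticGalois
import Fermat.Agent.MW.PAIR.Pairing4
import Fermat.Agent.J.DESC.NormalForm10
import Fermat.Agent.RR.LHypGen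
import Fermat.Agent.RED.TOP.FbarFacts20

set_option autoImplicit false

namespace Fermat.Agent.MW.ASM.Reps0

open ModularCurve AlgebraicCurve
open Fermat.Agent.MW.PAIR.Pairing4 Fermat.Agent.J.DESC.NormalForm10 Fermat.Agent.RR.LSpace

section Abstract

variable {K F : Type*} [Field K] [Field F] [Algebra K F]

/-- the size of an effective divisor is its coefficient sum. -/
theorem size_eq_cdeg_of_nonneg {E : Place K F →₀ ℤ} (hE : 0 ≤ E) : (size E : ℤ) = cdeg E := by
  classical
  rw [cdeg_apply, size, Finsupp.sum, Finsupp.sum]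
  push_cast
  refine Finset.sum_congr rfl fun v _ => ?_
  exact abs_of_nonneg (hE v)

theorem exists_bounded_reps_abstract (H : LHyp K F) (hR : RiemannHyp K F) (P₀ : Place K F)
    (hdeg : ∀ v : Place K F, v.deg = 1) :
    ∃ M : ℕ, ∀ x : Pic0 K F, ∃ a : Divisor.degZero (K := K) (F := F),
      size (a : Place K F →₀ ℤ) ≤ M ∧ Pic0.mk a = x := by
  classical
  obtain ⟨γ, hγ⟩ := id hR
  refine ⟨2 * γ.toNat, fun x => ⟨⟨_, sub_single_mem_degZero H hR P₀ x⟩, ?_,
    mk_normalFormPic' H hR P₀ x⟩⟩
  -- `minPolePic x ≤ γ.toNat`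
  have hmin : minPolePic H hR P₀ x ≤ γ.toNat := by
    refine minPole_le H hR P₀ _ fun hbot => ?_
    have h1 := hγ (shift P₀ ((Quotient.out x : Divisor.degZero (K := K) (F := F)) : Divisor K F)
      γ.toNat)
    rw [hbot, finrank_bot, degree_shift H,
      Divisor.mem_degZero.mp (Quotient.out x : Divisor.degZero (K := K) (F := F)).2] at h1
    have h2 : γ ≤ (γ.toNat : ℤ) := Int.self_le_toNat _
    push_cast at h1
    omega
  have hcd : ∀ D : Divisor K F, cdeg D = Divisor.degree D := fun D => by
    induction D using Finsupp.induction_linear with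
    | zero => simp
    | add a b ha hb => rw [map_add, map_add, ha, hb]
    | single v n => rw [cdeg_single, Divisor.degree_single, hdeg v]; simp
  have h1 : (size (normalFormPic H hR P₀ x) : ℤ) = minPolePic H hR P₀ x := by
    rw [size_eq_cdeg_of_nonneg (normalFormPic_nonneg H hR P₀ x), hcd, degree_normalFormPic]
  have h2 : size (Finsupp.single P₀ ((minPolePic H hR P₀ x : ℕ) : ℤ)) ≤ minPolePic H hR P₀ x := by
    rw [size]
    by_cases h0 : ((minPolePic H hR P₀ x : ℕ) : ℤ) = 0
    · rw [h0, Finsupp.single_zero, Finsupp.sum_zero_index]; exact Nat.zero_le _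
    · rw [Finsupp.sum_single_index (by simp)]; simp
  have h3 := size_sub_le (normalFormPic H hR P₀ x)
    (Finsupp.single P₀ ((minPolePic H hR P₀ x : ℕ) : ℤ))
  have h1' : size (normalFormPic H hR P₀ x) = minPolePic H hR P₀ x := by exact_mod_cast h1
  show size (normalFormPic H hR P₀ x - Finsupp.single P₀ ((minPolePic H hR P₀ x : ℕ) : ℤ)) ≤ _
  omega

end Abstract

/-- **Bounded representatives** of the classes of `JZero N`. -/
theorem exists_bounded_reps (N : ℕ) [NeZero N] :
    ∃ M : ℕ, ∀ x : JZero N, ∃ a : Divisor.degZero (K := AlgebraicClosure ℚ)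
        (F := ↥(modularFunctionFieldBar N)),
      size (a : Place (AlgebraicClosure ℚ) ↥(modularFunctionFieldBar N) →₀ ℤ) ≤ M ∧
        Pic0.mk a = x := by
  obtain ⟨P₀⟩ := Fermat.Agent.RED.TOP.FbarFacts20.nonempty_place_bar N
  exact exists_bounded_reps_abstract
    (Fermat.Agent.RR.LHypGen.lHyp_of_isGen (Fermat.Agent.RED.TOP.FbarFacts20.isGen_j N))
    (Fermat.Agent.RR.LHypGen.riemann_inequality_of_isGen
      (Fermat.Agent.RED.TOP.FbarFacts20.isGen_j N)) P₀
    (Fermat.Agent.RED.TOP.FbarFacts20.deg_eq_one_bar N)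

end Fermat.Agent.MW.ASM.Reps0
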