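/-
Programme MW (S17), block ASM (lead): **bounded representatives with the explicit bound `2g`**.

`exists_reps_genus` : in the setting of `RR/RRMain` (`K` algebraically closed of characteristic `0`,
`IsGen K x`, `HasCanonicalDivisor`, all places of degree one) every class of `Pic0 K F` is
`Pic0.mk a` with `Pairing4.size a ≤ 2 * genus K F`.
`exists_reps_jzero` : the same for `JZero N`.
-/
import Fermat.Agent.MW.ASM.Reps0
import Fermat.Agent.RR.RRMain
import Fermat.Agent.X0.HasCanDivInst

set_option autoImplicit false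

namespace Fermat.Agent.MW.ASM.Reps1

open ModularCurve AlgebraicCurve
open Fermat.Agent.MW.PAIR.Pairing4 Fermat.Agent.J.DESC.NormalForm10 Fermat.Agent.RR.LSpace
open Fermat.Agent.X0.FF

section Abstract

variable {K F : Type*} [Field K] [Field F] [Algebra K F] [IsAlgClosed K] [CharZero K] {x : F}
  [HasCanonicalDivisor (K := K) (F := F)]

/-- Riemann's inequality with the genus as constant. -/
theorem riemann_le (hx : IsGen K x) (D : Divisor K F) :
    Divisor.degree D + 1 - (genus K F : ℤ) ≤ (Module.finrank K (riemannRochSpace D) : ℤ) := by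
  have hω₀ := D_ne_zero hx
  have hW := fun v => canonicalDivisorOf_apply (K := K) (F := F) hω₀ v
  have h0 := Fermat.Agent.RR.RRMain.riemann_roch_genus hx hω₀ hW D
  have : (0 : ℤ) ≤ Module.finrank K (riemannRochSpace (canonicalDivisorOf hω₀ - D)) :=
    Int.natCast_nonneg _
  omega

theorem riemannHyp_genus (hx : IsGen K x) : RiemannHyp K F :=
  ⟨(genus K F : ℤ), fun D => riemann_le hx D⟩

/-- the size of an effective divisor is its coefficient sum. -/
theorem size_eq_cdeg_of_nonneg' {E : Place K F →₀ ℤ} (hE : 0 ≤ E) : (size E : ℤ) = cdeg E :=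
  Fermat.Agent.MW.ASM.Reps0.size_eq_cdeg_of_nonneg hE

theorem exists_reps_genus (hx : IsGen K x) (P₀ : Place K F) (x' : Pic0 K F) :
    ∃ a : Divisor.degZero (K := K) (F := F),
      size (a : Place K F →₀ ℤ) ≤ 2 * genus K F ∧ Pic0.mk a = x' := by
  classical
  have H : LHyp K F := Fermat.Agent.RR.LHypGen.lHyp_of_isGen hx
  have hR : RiemannHyp K F := riemannHyp_genus hx
  have hdeg : ∀ v : Place K F, v.deg = 1 := fun v => deg_eq_one hx v
  refine ⟨⟨_, sub_single_mem_degZero H hR P₀ x'⟩, ?_, mk_normalFormPic' H hR P₀ x'⟩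
  have hmin : minPolePic H hR P₀ x' ≤ genus K F := by
    refine minPole_le H hR P₀ _ fun hbot => ?_
    have h1 := riemann_le hx
      (shift P₀ ((Quotient.out x' : Divisor.degZero (K := K) (F := F)) : Divisor K F) (genus K F))
    rw [hbot, finrank_bot, degree_shift H,
      Divisor.mem_degZero.mp (Quotient.out x' : Divisor.degZero (K := K) (F := F)).2] at h1
    push_cast at h1
    omega
  have hcd : ∀ D : Divisor K F, cdeg D = Divisor.degree D := fun D => by
    induction D using Finsupp.induction_linear with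
    | zero => simp
    | add a b ha hb => rw [map_add, map_add, ha, hb]
    | single v n => rw [cdeg_single, Divisor.degree_single, hdeg v]; simp
  have h1 : (size (normalFormPic H hR P₀ x') : ℤ) = minPolePic H hR P₀ x' := by
    rw [size_eq_cdeg_of_nonneg' (normalFormPic_nonneg H hR P₀ x'), hcd, degree_normalFormPic]
  have h2 : size (Finsupp.single P₀ ((minPolePic H hR P₀ x' : ℕ) : ℤ)) ≤ minPolePic H hR P₀ x' := by
    rw [size]
    by_cases h0 : ((minPolePic H hR P₀ x' : ℕ) : ℤ) = 0
    · rw [h0, Finsupp.single_zero, Finsupp.sum_zero_index]; exact Nat.zero_le _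
    · rw [Finsupp.sum_single_index (by simp)]; simp
  have h3 := size_sub_le (normalFormPic H hR P₀ x')
    (Finsupp.single P₀ ((minPolePic H hR P₀ x' : ℕ) : ℤ))
  have h1' : size (normalFormPic H hR P₀ x') = minPolePic H hR P₀ x' := by exact_mod_cast h1
  show size (normalFormPic H hR P₀ x' - Finsupp.single P₀ ((minPolePic H hR P₀ x' : ℕ) : ℤ)) ≤ _
  omega

end Abstract

/-- `Fbar N / ℚbar` has canonical divisors (`X0/HasCanDivInst`), as an instance. -/
instance instHasCanonicalDivisorBar (N : ℕ) [NeZero N] :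
    HasCanonicalDivisor (K := AlgebraicClosure ℚ) (F := ↥(modularFunctionFieldBar N)) :=
  Fermat.Agent.X0.HasCanDivInst.hasCanonicalDivisor' N

/-- **Representatives of size `≤ 2g`** of the classes of `JZero N`. -/
theorem exists_reps_jzero (N : ℕ) [NeZero N] (x : JZero N) :
    ∃ a : Divisor.degZero (K := AlgebraicClosure ℚ) (F := ↥(modularFunctionFieldBar N)),
      size (a : Place (AlgebraicClosure ℚ) ↥(modularFunctionFieldBar N) →₀ ℤ) ≤
        2 * genus (AlgebraicClosure ℚ) ↥(modularFunctionFieldBar N) ∧ Pic0.mk a = x := by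
  obtain ⟨P₀⟩ := Fermat.Agent.RED.TOP.FbarFacts20.nonempty_place_bar N
  exact exists_reps_genus (Fermat.Agent.RED.TOP.FbarFacts20.isGen_j N) P₀ x

end Fermat.Agent.MW.ASM.Reps1
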