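/-
Programme MW (S17), block ASM (lead): **final assembly, abstract form**.

`fg_of_blocks` : the Galois-fixed points of `JZero N` form a finitely generated group, GIVEN
* a symmetric global pairing function `lam` on the places of `Fbar N` with the uniform
  decomposition property `Pairing4.UD lam Divisor.principal` (blocks CHOW+UD, HT),
* bounded representatives of divisor classes (`hrep`, Riemann–Roch),
* the Northcott property of `Pairing4.q lam` on bounded representatives of RATIONAL classes
  (`hNorth`, block POS),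
* weak Mordell–Weil in the form exported by block B (`hweak`).

Everything here is formal: `Pairing4.exists_qhat` + `Descent4.fg_addSubgroup_of_quasiPar`.
-/
import Fermat.Prelude.Def_ModularCurve_ArithmeticGalois
import Fermat.Agent.MW.DESC.Descent4
import Fermat.Agent.MW.PAIR.Pairing4
import Fermat.Agent.RED.TOP.FbarFacts20

set_option autoImplicit false

namespace Fermat.Agent.MW.ASM.Assemble0

open ModularCurve AlgebraicCurve
open Fermat.Agent.MW.DESC.Descent4 Fermat.Agent.MW.PAIR.Pairing4

variable (N : ℕ) [NeZero N]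

/-- The places of `Fbar N / ℚbar`. -/
abbrev Pt : Type := Place (AlgebraicClosure ℚ) ↥(modularFunctionFieldBar N)

/-- The absolute Galois group of `ℚ`. -/
abbrev GQ : Type := AlgebraicClosure ℚ ≃ₐ[ℚ] AlgebraicClosure ℚ

/-- Over `ℚbar` the degree of a divisor is its coefficient sum. -/
theorem cdeg_eq_degree (a : Divisor (AlgebraicClosure ℚ) ↥(modularFunctionFieldBar N)) :
    cdeg a = Divisor.degree a := by
  have h : (cdeg : (Pt N →₀ ℤ) →+ ℤ) = Divisor.degree := by
    refine Finsupp.addHom_ext fun v n => ?_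
    rw [cdeg_single, Divisor.degree_single,
      Fermat.Agent.RED.TOP.FbarFacts20.deg_eq_one_bar N v]
    simp
  rw [h]

/-- Principal divisors have coefficient sum `0`. -/
theorem cdeg_eq_zero_of_principal {u : Divisor (AlgebraicClosure ℚ) ↥(modularFunctionFieldBar N)}
    (hu : u ∈ Divisor.principal (K := AlgebraicClosure ℚ) (F := ↥(modularFunctionFieldBar N))) :
    cdeg u = 0 := by
  obtain ⟨f, hf, hD⟩ := hu
  obtain ⟨D, hD1, hD2⟩ := Fermat.Agent.RED.TOP.FbarFacts20.exists_divisor_bar N hf
  have : u = D := Finsupp.ext fun v => by rw [hD v, hD1 v]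
  rw [cdeg_eq_degree, this, hD2]

/-- **Final assembly (abstract form).** -/
theorem fg_of_blocks (lam : Pt N → Pt N → ℝ) (hsymm : ∀ x y, lam x y = lam y x)
    (hUD : UD lam (Divisor.principal (K := AlgebraicClosure ℚ) (F := ↥(modularFunctionFieldBar N))))
    (M : ℕ)
    (hrep : ∀ x : JZero N, ∃ a : Divisor.degZero (K := AlgebraicClosure ℚ)
        (F := ↥(modularFunctionFieldBar N)), size (a : Pt N →₀ ℤ) ≤ M ∧ Pic0.mk a = x)
    (hNorth : ∀ B : ℝ, {x : JZero N | (∀ σ : GQ, σ • x = x) ∧
        ∃ a : Divisor.degZero (K := AlgebraicClosure ℚ) (F := ↥(modularFunctionFieldBar N)),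
          size (a : Pt N →₀ ℤ) ≤ M ∧ Pic0.mk a = x ∧ q lam (a : Pt N →₀ ℤ) ≤ B}.Finite)
    (hweak : ∃ R : Finset (JZero N), (∀ r ∈ R, ∀ σ : GQ, σ • r = r) ∧
        ∀ x : JZero N, (∀ σ : GQ, σ • x = x) →
          ∃ r ∈ R, ∃ z : JZero N, (∀ σ : GQ, σ • z = z) ∧ x = r + 2 • z) :
    AddGroup.FG ↥(FixedPoints.addSubgroup GQ (JZero N)) := by
  classical
  -- the quasi-quadratic function on `JZero N`
  obtain ⟨qhat, hpar, hcmp⟩ := exists_qhat (Pt := Pt N) (lam := lam) hsymm
    (fun u hu => cdeg_eq_zero_of_principal N hu) hUD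
    (J := JZero N)
    (Divisor.degZero (K := AlgebraicClosure ℚ) (F := ↥(modularFunctionFieldBar N)))
    (fun a ha => by rw [cdeg_eq_degree]; exact ha)
    (QuotientAddGroup.mk' _)
    (fun a ha => by
      have := (QuotientAddGroup.eq_zero_iff (a : Divisor.degZero (K := AlgebraicClosure ℚ)
        (F := ↥(modularFunctionFieldBar N)))).mp ha
      exact AddSubgroup.mem_addSubgroupOf.mp this)
    M hrep
  obtain ⟨C, hC⟩ := hcmp M
  obtain ⟨R, hRfix, hR⟩ := hweak
  refine fg_addSubgroup_of_quasiPar (FixedPoints.addSubgroup GQ (JZero N)) qhat hpar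
    (fun B => ?_) R (fun r hr => ?_) (fun x hx => ?_)
  · refine (hNorth (B + C)).subset ?_
    rintro x ⟨hxG, hxB⟩
    refine ⟨fun σ => hxG σ, ?_⟩
    obtain ⟨a, haM, hax⟩ := hrep x
    refine ⟨a, haM, hax, ?_⟩
    have h1 := hC a haM
    have h2 : qhat (QuotientAddGroup.mk' _ a) = qhat x := by
      congr 1
    rw [h2] at h1
    have := abs_le.mp h1
    linarith [this.1, this.2]
  · exact fun σ => hRfix r hr σ
  · obtain ⟨r, hr, z, hz, hxz⟩ := hR x (fun σ => hx σ)
    exact ⟨r, hr, z, fun σ => hz σ, by rw [hxz, add_comm]⟩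

end Fermat.Agent.MW.ASM.Assemble0
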