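/-
Programme MW (S17), block ASM (lead): **final assembly, bounded form** (this is the form the other
blocks should aim at; `g := genus ℚbar (Fbar N)`).

`fg_of_lam_le` : `AddGroup.FG (J₀(N)(ℚ))` from
* `lam` symmetric with `PairingB4.UDle lam Divisor.principal (8 * g)`      (blocks CHOW+UD, HT, EMB);
* `hNorth` : Northcott for `Pairing4.q lam` on representatives of size `≤ 2 * g` of RATIONAL classes
  (block POS);
* `hdiv` : rational classes are divisible by `2` in `JZero N`                (block A).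
Uses `PairingB4.exists_qhat_pic0_le`, `Reps1.exists_reps_jzero`, `WeakMW1.exists_finset_reps`,
`Descent4.fg_addSubgroup_of_quasiPar`.
-/
import Fermat.Agent.MW.ASM.Assemble0
import Fermat.Agent.MW.ASM.Reps1
import Fermat.Agent.MW.PAIR.PairingB4
import Fermat.Agent.MW.B.WeakMW1

set_option autoImplicit false

namespace Fermat.Agent.MW.ASM.Assemble3

open ModularCurve AlgebraicCurve
open Fermat.Agent.MW.DESC.Descent4 Fermat.Agent.MW.PAIR.Pairing4 Fermat.Agent.MW.PAIR.PairingB4
open Fermat.Agent.MW.ASM.Assemble0 Fermat.Agent.MW.ASM.Reps1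

variable (N : ℕ) [NeZero N]

/-- the genus of `X₀(N)`. -/
noncomputable abbrev gN : ℕ := genus (AlgebraicClosure ℚ) ↥(modularFunctionFieldBar N)

/-- **Final assembly, bounded form.** -/
theorem fg_of_lam_le (lam : Pt N → Pt N → ℝ) (hsymm : ∀ x y, lam x y = lam y x)
    (hUD : UDle lam (Divisor.principal (K := AlgebraicClosure ℚ)
      (F := ↥(modularFunctionFieldBar N))) (8 * gN N))
    (hNorth : ∀ B : ℝ, {x : JZero N | (∀ σ : GQ, σ • x = x) ∧
        ∃ a : Divisor.degZero (K := AlgebraicClosure ℚ) (F := ↥(modularFunctionFieldBar N)),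
          size (a : Pt N →₀ ℤ) ≤ 2 * gN N ∧ Pic0.mk a = x ∧ q lam (a : Pt N →₀ ℤ) ≤ B}.Finite)
    (hdiv : ∀ x : JZero N, (∀ σ : GQ, σ • x = x) → ∃ y : JZero N, 2 • y = x) :
    AddGroup.FG ↥(FixedPoints.addSubgroup GQ (JZero N)) := by
  classical
  haveI : Fact (Nat.Prime 2) := ⟨Nat.prime_two⟩
  have hP0 : ∀ u ∈ Divisor.principal (K := AlgebraicClosure ℚ)
      (F := ↥(modularFunctionFieldBar N)), Divisor.degree u = 0 := fun u hu => by
    rw [← cdeg_eq_degree]; exact cdeg_eq_zero_of_principal N hu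
  obtain ⟨qhat, hpar, C, hC⟩ := exists_qhat_pic0_le
    (Fermat.Agent.RED.TOP.FbarFacts20.deg_eq_one_bar N) hsymm hP0 (2 * gN N)
    (by rw [show 4 * (2 * gN N) = 8 * gN N by ring]; exact hUD)
    (fun x => exists_reps_jzero N x)
  obtain ⟨R, hRfix, hR⟩ := Fermat.Agent.MW.B.WeakMW1.exists_finset_reps N 2 hdiv
  refine fg_addSubgroup_of_quasiPar (FixedPoints.addSubgroup GQ (JZero N)) qhat hpar
    (fun B => ?_) R (fun r hr => ?_) (fun x hx => ?_)
  · refine (hNorth (B + C)).subset ?_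
    rintro x ⟨hxG, hxB⟩
    refine ⟨fun σ => hxG σ, ?_⟩
    obtain ⟨a, haM, hax⟩ := exists_reps_jzero N x
    refine ⟨a, haM, hax, ?_⟩
    have h1 := hC a (haM.trans (by show 2 * gN N ≤ 2 * (2 * gN N); omega))
    rw [hax] at h1
    have := abs_le.mp h1
    linarith [this.1, this.2]
  · exact fun σ => hRfix r hr σ
  · obtain ⟨r, hr, z, hz, hxz⟩ := hR x (fun σ => hx σ)
    exact ⟨r, hr, z, fun σ => hz σ, by rw [hxz, add_comm]⟩

end Fermat.Agent.MW.ASM.Assemble3
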