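/-
Programme MW (S17), block ASM (lead): **the genus-zero case**.  If `genus (Fbar N) = 0` then `JZero N`
is trivial (normal form of degree `≤ g = 0`), hence its group of Galois-fixed points is finitely
generated.  (Levels `N = 5, 7, 13` among the primes.)
-/
import Fermat.Agent.MW.POS.NorthGlue0

set_option autoImplicit false

namespace Fermat.Agent.MW.ASM.GenusZero0

open ModularCurve AlgebraicCurve
open Fermat.Agent.MW.PAIR.Pairing4
open Fermat.Agent.MW.ASM.Assemble0 Fermat.Agent.MW.ASM.Assemble3 Fermat.Agent.MW.POS.NorthGlue0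

variable {N : ℕ} [NeZero N]

theorem eq_zero_of_genus_zero (h : gN N = 0) (x : JZero N) : x = 0 := by
  classical
  obtain ⟨P0⟩ := Fermat.Agent.RED.TOP.FbarFacts20.nonempty_place_bar N
  have hr : r0 N P0 x = 0 := by
    have := r0_le P0 x
    omega
  have hE : E0 N P0 x = 0 := by
    have h1 := size_E0 P0 x
    rw [hr] at h1
    -- size = 0 ⇒ all coefficients vanish
    ext v
    have h2 : (E0 N P0 x v).natAbs ≤ size (E0 N P0 x) := by
      by_cases hv : v ∈ (E0 N P0 x).support
      · rw [size, Finsupp.sum]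
        exact Finset.single_le_sum (f := fun w => (E0 N P0 x w).natAbs) (fun _ _ => Nat.zero_le _) hv
      · rw [Finsupp.notMem_support_iff.mp hv]; simp
    rw [h1] at h2
    simpa using h2
  have ha : a0 P0 x = 0 := by
    apply Subtype.ext
    rw [coe_a0, hE, hr]
    simp
  rw [← mk_a0 P0 x, ha]
  rfl

theorem fg_of_genus_zero (h : gN N = 0) :
    AddGroup.FG ↥(FixedPoints.addSubgroup GQ (JZero N)) := by
  have : Subsingleton (JZero N) :=
    ⟨fun a b => by rw [eq_zero_of_genus_zero h a, eq_zero_of_genus_zero h b]⟩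
  have : Subsingleton ↥(FixedPoints.addSubgroup GQ (JZero N)) :=
    ⟨fun a b => Subtype.ext (Subsingleton.elim _ _)⟩
  have : Finite ↥(FixedPoints.addSubgroup GQ (JZero N)) := Finite.of_subsingleton
  exact AddGroup.fg_of_finite

end Fermat.Agent.MW.ASM.GenusZero0
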