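/-
Programme MW (S17), block ASM (lead): **final assembly with blocks A and B discharged**.

`fg_of_lam_north` : `AddGroup.FG (J₀(N)(ℚ))` from
* `lam` symmetric with `UDle lam Divisor.principal (8 * g)`      (blocks CHOW+UD, HT, EMB);
* `hNorth`                                                          (block POS, via `NorthGlue0`).
Divisibility is `MW/A/NSGlue2.jzero_divisible` (block A), weak Mordell–Weil is `MW/B/WeakMW1`.
-/
import Fermat.Agent.MW.ASM.Assemble3
import Fermat.Agent.MW.A.NSGlue2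

set_option autoImplicit false

namespace Fermat.Agent.MW.ASM.Assemble4

open ModularCurve AlgebraicCurve
open Fermat.Agent.MW.DESC.Descent4 Fermat.Agent.MW.PAIR.Pairing4 Fermat.Agent.MW.PAIR.PairingB4
open Fermat.Agent.MW.ASM.Assemble0 Fermat.Agent.MW.ASM.Assemble3

variable (N : ℕ) [NeZero N]

/-- **Final assembly** (blocks A, B, DESC, PAIR discharged). -/
theorem fg_of_lam_north (lam : Pt N → Pt N → ℝ) (hsymm : ∀ x y, lam x y = lam y x)
    (hUD : UDle lam (Divisor.principal (K := AlgebraicClosure ℚ)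
      (F := ↥(modularFunctionFieldBar N))) (8 * gN N))
    (hNorth : ∀ B : ℝ, {x : JZero N | (∀ σ : GQ, σ • x = x) ∧
        ∃ a : Divisor.degZero (K := AlgebraicClosure ℚ) (F := ↥(modularFunctionFieldBar N)),
          size (a : Pt N →₀ ℤ) ≤ 2 * gN N ∧ Pic0.mk a = x ∧ q lam (a : Pt N →₀ ℤ) ≤ B}.Finite) :
    AddGroup.FG ↥(FixedPoints.addSubgroup GQ (JZero N)) :=
  fg_of_lam_le N lam hsymm hUD hNorth
    (fun x _ => Fermat.Agent.MW.A.NSGlue2.jzero_divisible N 2 (by norm_num) x)

end Fermat.Agent.MW.ASM.Assemble4
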