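/-
Programme MW (S17), block ASM (lead): the embedding `v ↦ pt v` is projectively injective
(`EMB/Proj6.pt_indep` restated in the shape needed by `POS/NorthPt0.finite_of_northcott_tuple`).
-/
import Fermat.Agent.MW.EMB.Proj6

set_option autoImplicit false

namespace Fermat.Agent.MW.ASM.PtInj0

open AlgebraicCurve
open Fermat.Agent.X0.FF Fermat.Agent.RR.LHypGen Fermat.Agent.MW.EMB.OnePoint6
open Fermat.Agent.MW.EMB.Proj6

variable {K F : Type*} [Field K] [Field F] [Algebra K F]
variable [IsAlgClosed K] [CharZero K] {x : F} [HasCanonicalDivisor (K := K) (F := F)]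

theorem pt_proj_inj (hx : IsGen K x) (P0 : Place K F) {d : ℕ} {t0 : F} (ht0 : P0.ord t0 = 1)
    {n : ℕ} (b : Module.Basis (Fin n) K (Lm P0 d)) (hd : 2 * (genus K F : ℤ) + 1 ≤ d)
    (v w : Place K F) (c : K)
    (h : pt (lHyp_of_isGen hx) P0 d ht0 b v = c • pt (lHyp_of_isGen hx) P0 d ht0 b w) : v = w := by
  by_contra hvw
  have hli := pt_indep hx P0 ht0 b hd hvw
  rw [LinearIndependent.pair_iff] at hli
  have := (hli 1 (-c) (by rw [one_smul, neg_smul, h, add_neg_cancel])).1
  exact one_ne_zero this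

end Fermat.Agent.MW.ASM.PtInj0
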