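/-
Programme MW (S17), block ASM (lead): **Northcott for the places of `X₀(N)`** in the embedding by
`|d·P0|` with the rational basis (`EMB/Modular1`): places with at most `d'` Galois conjugates and
`ht (pt v) ≤ B` are finite in number.  This is `hNorthPt` of `POS/NorthGlue0.hNorth_of_pos` with
`hc v := ht (ptN N d v)`.
-/
import Fermat.Agent.MW.EMB.Modular1
import Fermat.Agent.MW.ASM.PtInj0
import Fermat.Agent.MW.ASM.Reps1
import Fermat.Agent.MW.POS.NorthPt1

set_option autoImplicit false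

namespace Fermat.Agent.MW.ASM.NorthMod0

open AlgebraicCurve ModularCurve
open Fermat.Agent.X0 Fermat.Agent.X0.FF Fermat.Agent.RR.LHypGen
open Fermat.Agent.MW.EMB.OnePoint6 Fermat.Agent.MW.EMB.Proj6 Fermat.Agent.MW.EMB.Modular1
open Fermat.Agent.RED.TOP.FbarFacts20
open Fermat.Agent.MW.HT.Place3 Fermat.Agent.MW.HT.Orbit3 Fermat.Agent.MW.HT.Ht3

variable (N : ℕ) [NeZero N]

/-- the number of homogeneous coordinates of the embedding by `|d·P0|`. -/
noncomputable abbrev nN (d : ℕ) : ℕ := Module.finrank Kbar (Lm (P0 N) d)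

/-- the homogeneous coordinates of a place of `X₀(N)` w.r.t. the rational basis of `L(d·P0)`. -/
noncomputable def ptN (d : ℕ) (v : Place Kbar (FF N)) : Fin (nN N d) → Kbar :=
  pt (lHyp_of_isGen (isGen_j N)) (P0 N) d (ord_t0 N) (ratBasis N d) v

theorem ptN_gal (d : ℕ) (σ : (Kbar ≃ₐ[ℚ] Kbar)) (v : Place Kbar (FF N)) :
    ptN N d (gal N σ • v) = σ • ptN N d v := by
  unfold ptN
  rw [pt_gal]
  rfl

theorem ptN_ne_zero {d : ℕ} (hd : 2 * (genus Kbar (FF N) : ℤ) ≤ d) (v : Place Kbar (FF N)) :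
    ptN N d v ≠ 0 :=
  pt_ne_zero (isGen_j N) (P0 N) (ord_t0 N) (ratBasis N d) hd v

theorem ptN_inj {d : ℕ} (hd : 2 * (genus Kbar (FF N) : ℤ) + 1 ≤ d) (v w : Place Kbar (FF N))
    (c : Kbar) (h : ptN N d v = c • ptN N d w) : v = w :=
  Fermat.Agent.MW.ASM.PtInj0.pt_proj_inj (isGen_j N) (P0 N) (ord_t0 N) (ratBasis N d) hd v w c h

/-- **Northcott for the places of `X₀(N)`.** -/
theorem finite_places {d : ℕ} (hd : 2 * (genus Kbar (FF N) : ℤ) + 1 ≤ d) (d' : ℕ) (B : ℝ) :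
    {v : Place Kbar (FF N) | (∃ S : Finset (Place Kbar (FF N)), S.card ≤ d' ∧
      ∀ σ : (Kbar ≃ₐ[ℚ] Kbar), gal N σ • v ∈ S) ∧ ht (ptN N d v) ≤ B}.Finite :=
  Fermat.Agent.MW.POS.NorthPt1.finite_of_bounded (ptN N d)
    (ptN_ne_zero N (by omega)) (fun v w c _ h => ptN_inj N hd v w c h)
    (fun σ v => gal N σ • v) (fun σ v => ptN_gal N d σ v) d' B

end Fermat.Agent.MW.ASM.NorthMod0
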