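/-
Programme MW (S17), block ASM (lead): **final assembly, second form** (bounded representatives
discharged by `Reps0.exists_bounded_reps`).

`fg_of_lam` : `AddGroup.FG (J₀(N)(ℚ))` from
* `lam`, `hsymm`, `hUD`          (blocks CHOW+UD, HT);
* `hNorth` for every size bound   (block POS);
* `hweak`                         (block B + block A at `p = 2`).
-/
import Fermat.Agent.MW.ASM.Assemble0
import Fermat.Agent.MW.ASM.Reps0

set_option autoImplicit false

namespace Fermat.Agent.MW.ASM.Assemble1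

open ModularCurve AlgebraicCurve
open Fermat.Agent.MW.DESC.Descent4 Fermat.Agent.MW.PAIR.Pairing4
open Fermat.Agent.MW.ASM.Assemble0

variable (N : ℕ) [NeZero N]

/-- **Final assembly.** -/
theorem fg_of_lam (lam : Pt N → Pt N → ℝ) (hsymm : ∀ x y, lam x y = lam y x)
    (hUD : UD lam (Divisor.principal (K := AlgebraicClosure ℚ) (F := ↥(modularFunctionFieldBar N))))
    (hNorth : ∀ (M : ℕ) (B : ℝ), {x : JZero N | (∀ σ : GQ, σ • x = x) ∧
        ∃ a : Divisor.degZero (K := AlgebraicClosure ℚ) (F := ↥(modularFunctionFieldBar N)),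
          size (a : Pt N →₀ ℤ) ≤ M ∧ Pic0.mk a = x ∧ q lam (a : Pt N →₀ ℤ) ≤ B}.Finite)
    (hweak : ∃ R : Finset (JZero N), (∀ r ∈ R, ∀ σ : GQ, σ • r = r) ∧
        ∀ x : JZero N, (∀ σ : GQ, σ • x = x) →
          ∃ r ∈ R, ∃ z : JZero N, (∀ σ : GQ, σ • z = z) ∧ x = r + 2 • z) :
    AddGroup.FG ↥(FixedPoints.addSubgroup GQ (JZero N)) := by
  obtain ⟨M, hrep⟩ := Fermat.Agent.MW.ASM.Reps0.exists_bounded_reps N
  exact fg_of_blocks N lam hsymm hUD M hrep (hNorth M) hweak

end Fermat.Agent.MW.ASM.Assemble1
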