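/-
Programme MW (S17), block ASM (lead): **final assembly, third form** (weak Mordell–Weil discharged
by block B, `MW/B/WeakMW1.exists_finset_reps` at `p = 2`).

`fg_of_lam_div` : `AddGroup.FG (J₀(N)(ℚ))` from
* `lam`, `hsymm`, `hUD`          (blocks CHOW+UD, HT);
* `hNorth` for every size bound   (block POS);
* `hdiv` : rational classes are divisible by `2` in `JZero N`   (block A).
-/
import Fermat.Agent.MW.ASM.Assemble1
import Fermat.Agent.MW.B.WeakMW1

set_option autoImplicit false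

namespace Fermat.Agent.MW.ASM.Assemble2

open ModularCurve AlgebraicCurve
open Fermat.Agent.MW.DESC.Descent4 Fermat.Agent.MW.PAIR.Pairing4
open Fermat.Agent.MW.ASM.Assemble0

variable (N : ℕ) [NeZero N]

/-- **Final assembly.** -/
theorem fg_of_lam_div (lam : Pt N → Pt N → ℝ) (hsymm : ∀ x y, lam x y = lam y x)
    (hUD : UD lam (Divisor.principal (K := AlgebraicClosure ℚ) (F := ↥(modularFunctionFieldBar N))))
    (hNorth : ∀ (M : ℕ) (B : ℝ), {x : JZero N | (∀ σ : GQ, σ • x = x) ∧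
        ∃ a : Divisor.degZero (K := AlgebraicClosure ℚ) (F := ↥(modularFunctionFieldBar N)),
          size (a : Pt N →₀ ℤ) ≤ M ∧ Pic0.mk a = x ∧ q lam (a : Pt N →₀ ℤ) ≤ B}.Finite)
    (hdiv : ∀ x : JZero N, (∀ σ : GQ, σ • x = x) → ∃ y : JZero N, 2 • y = x) :
    AddGroup.FG ↥(FixedPoints.addSubgroup GQ (JZero N)) := by
  haveI : Fact (Nat.Prime 2) := ⟨Nat.prime_two⟩
  exact Fermat.Agent.MW.ASM.Assemble1.fg_of_lam N lam hsymm hUD hNorth
    (Fermat.Agent.MW.B.WeakMW1.exists_finset_reps N 2 hdiv)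

end Fermat.Agent.MW.ASM.Assemble2
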